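import Mathlib

set_option autoImplicit false

open CategoryTheory AlgebraicGeometry IsLocalRing

universe u

namespace Fermat.Agent.S26.NORM5656.Kit

/-- An element lying in every valuation subring containing the image of `R` is integral over `R`. -/
theorem isIntegral_of_forall_mem_valuationSubring {R F : Type*} [CommRing R] [Field F] [Algebra R F]
    {h : F} (H : ∀ V : ValuationSubring F, (∀ r : R, algebraMap R F r ∈ V) → h ∈ V) :
    IsIntegral R h := by
  have key := iInf_valuationSubring_superset (K := F) (s := Set.range (algebraMap R F))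
  have hmem : h ∈ (⨅ V : {V : ValuationSubring F // Set.range (algebraMap R F) ⊆ V.toSubring},
      V.1.toSubring) := by
    rw [Subring.mem_iInf]
    rintro ⟨V, hV⟩
    exact H V (fun r => hV ⟨r, rfl⟩)
  rw [key] at hmem
  have h1 : IsIntegral (Subring.closure (Set.range (algebraMap R F))) h := hmem
  obtain ⟨p, hp, hpe⟩ := h1
  have hle : Subring.closure (Set.range (algebraMap R F)) ≤ (algebraMap R F).range :=
    (Subring.closure_le).mpr (by rintro _ ⟨r, rfl⟩; exact ⟨r, rfl⟩)
  let φ : R →+* Subring.closure (Set.range (algebraMap R F)) :=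
    (algebraMap R F).codRestrict _ (fun r => Subring.subset_closure ⟨r, rfl⟩)
  have hφ : Function.Surjective φ := by
    intro s
    obtain ⟨r, hr⟩ := hle s.2
    exact ⟨r, Subtype.ext hr⟩
  obtain ⟨q0, hq0⟩ := Polynomial.map_surjective φ hφ p
  obtain ⟨q, hq, -, hqm⟩ := Polynomial.lifts_and_degree_eq_and_monic
    ((Polynomial.mem_lifts _).mpr ⟨q0, hq0⟩) hp
  refine ⟨q, hqm, ?_⟩
  have hcomp : (algebraMap (Subring.closure (Set.range (algebraMap R F))) F).comp φ
      = algebraMap R F := by
    ext r; rfl
  rw [← hcomp, ← Polynomial.eval₂_map, hq]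
  exact hpe

/-- Norm of an element which is integral together with its inverse is a unit of the
integrally closed base. -/
theorem exists_unit_eq_norm {R E F : Type*} [CommRing R] [IsDomain R] [IsIntegrallyClosed R]
    [Field E] [Field F] [Algebra R E] [IsFractionRing R E] [Algebra E F] [Algebra R F]
    [IsScalarTower R E F] [FiniteDimensional E F] {h : F} (h0 : h ≠ 0)
    (hi : IsIntegral R h) (hi' : IsIntegral R h⁻¹) :
    ∃ r : Rˣ, algebraMap R E (r : R) = Algebra.norm E h := by
  obtain ⟨a, ha⟩ := (IsIntegrallyClosed.isIntegral_iff (R := R) (K := E)).mp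
    (Algebra.isIntegral_norm E hi)
  obtain ⟨b, hb⟩ := (IsIntegrallyClosed.isIntegral_iff (R := R) (K := E)).mp
    (Algebra.isIntegral_norm E hi')
  have hab : a * b = 1 := by
    apply IsFractionRing.injective R E
    rw [map_mul, ha, hb, ← map_mul, mul_inv_cancel₀ h0, map_one, map_one]
  exact ⟨⟨a, b, hab, by rw [mul_comm]; exact hab⟩, ha⟩

/-- Centers of valuation rings on a universally closed scheme over `Y`, in the fibre over `y`:
if a valuation subring `V` of the function field of an integral scheme `X` contains the image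
of the local ring `O_{Y,y}`, then there is a point `x` of `X` over `y` whose local ring is
contained in `V`. -/
theorem exists_point_over_of_valuationSubring
    {X Y : Scheme.{u}} (σ : X ⟶ Y) [IsIntegral X] [UniversallyClosed σ]
    (y : Y) (hy : σ (genericPoint X) ⤳ y)
    (V : ValuationSubring X.functionField)
    (hV : ∀ s : Y.presheaf.stalk y,
      (σ.stalkMap (genericPoint X)).hom ((Y.presheaf.stalkSpecializes hy).hom s) ∈ V) :
    ∃ x : X, σ x = y ∧
      ∀ t : X.presheaf.stalk x, algebraMap (X.presheaf.stalk x) X.functionField t ∈ V := by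
  have H : ValuativeCriterion.Existence σ := by
    have h := ‹UniversallyClosed σ›
    rw [UniversallyClosed.eq_valuativeCriterion] at h
    exact h.1
  let φ₀ : Y.presheaf.stalk y ⟶ X.functionField :=
    Y.presheaf.stalkSpecializes hy ≫ σ.stalkMap (genericPoint X)
  let φ : Y.presheaf.stalk y →+* V := φ₀.hom.codRestrict V.toSubring hV
  let i₁ : Spec (.of X.functionField) ⟶ X := X.fromSpecStalk (genericPoint X)
  let i₂ : Spec (.of V) ⟶ Y := Spec.map (CommRingCat.ofHom φ) ≫ Y.fromSpecStalk y
  have hφ : CommRingCat.ofHom φ ≫ CommRingCat.ofHom (algebraMap V X.functionField) = φ₀ := by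
    ext s; rfl
  have w : i₁ ≫ σ = Spec.map (CommRingCat.ofHom (algebraMap V X.functionField)) ≫ i₂ := by
    simp only [i₁, i₂]
    rw [← Spec.map_comp_assoc, hφ]
    simp only [φ₀, Spec.map_comp, Category.assoc, Scheme.SpecMap_stalkSpecializes_fromSpecStalk,
      Scheme.SpecMap_stalkMap_fromSpecStalk]
  let S : ValuativeCommSq σ :=
    { R := V, K := X.functionField, i₁ := i₁, i₂ := i₂, commSq := ⟨w⟩ }
  obtain ⟨l, hl₁, hl₂⟩ := (H S).exists_lift
  dsimp only [S] at l hl₁ hl₂
  set x' : X := l (closedPoint V) with hx'
  have hgen : genericPoint X ⤳ x' := (genericPoint_spec X).specializes trivial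
  have hA : ∀ t : X.presheaf.stalk x',
      algebraMap (X.presheaf.stalk x') X.functionField t ∈ V := by
    intro t
    let ψ : X.presheaf.stalk x' ⟶ .of V := Scheme.stalkClosedPointTo l
    have hψ : Spec.map ψ ≫ X.fromSpecStalk x' = l := Scheme.Spec_stalkClosedPointTo_fromSpecStalk l
    have e1 : Spec.map (ψ ≫ CommRingCat.ofHom (algebraMap V X.functionField)) ≫
        X.fromSpecStalk x' = Spec.map (X.presheaf.stalkSpecializes hgen) ≫ X.fromSpecStalk x' := by
      rw [Spec.map_comp, Category.assoc, hψ, hl₁, Scheme.SpecMap_stalkSpecializes_fromSpecStalk]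
    have e2 : ψ ≫ CommRingCat.ofHom (algebraMap V X.functionField) =
        X.presheaf.stalkSpecializes hgen :=
      Spec.map_injective ((cancel_mono (X.fromSpecStalk x')).mp e1)
    have e3 : algebraMap (X.presheaf.stalk x') X.functionField t =
        (X.presheaf.stalkSpecializes hgen).hom t := rfl
    rw [e3, ← e2]
    exact (ψ.hom t).2
  have hB : σ x' ⤳ y := by
    have : σ x' ∈ Set.range (Y.fromSpecStalk y) := by
      have h2 : (l ≫ σ) (closedPoint V) = i₂ (closedPoint V) := by rw [hl₂]
      exact ⟨Spec.map (CommRingCat.ofHom φ) (closedPoint V), h2.symm⟩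
    rw [Scheme.range_fromSpecStalk] at this
    exact this
  obtain ⟨x, hx'x, hxy⟩ := (ValuativeCriterion.Existence.specializingMap σ H) hB
  refine ⟨x, hxy, fun t => ?_⟩
  have hgen' : genericPoint X ⤳ x := (genericPoint_spec X).specializes trivial
  have e4 : algebraMap (X.presheaf.stalk x) X.functionField t =
      algebraMap (X.presheaf.stalk x') X.functionField
        ((X.presheaf.stalkSpecializes hx'x).hom t) := by
    have e5 := TopCat.Presheaf.stalkSpecializes_comp X.presheaf hgen hx'x
    change (X.presheaf.stalkSpecializes hgen').hom t =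
      (X.presheaf.stalkSpecializes hgen).hom ((X.presheaf.stalkSpecializes hx'x).hom t)
    rw [← CommRingCat.comp_apply, e5]
  rw [e4]
  exact hA _

/-- **Norm descent, local form.**  `σ : X ⟶ Y` universally closed, `X`, `Y` integral,
`O_{Y,y}` integrally closed, `K(X)/K(Y)` finite (the algebra structure is a parameter, only
required to be compatible with `σ` on `O_{Y,y}`).  If `h ∈ K(X)` is a unit of `O_{X,x}` for every
point `x` of the fibre `σ⁻¹(y)`, then `Norm h` is a unit of `O_{Y,y}`. -/
theorem exists_unit_stalk_eq_norm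
    {X Y : Scheme.{u}} (σ : X ⟶ Y) [IsIntegral X] [IsIntegral Y] [UniversallyClosed σ]
    (y : Y) (hy : σ (genericPoint X) ⤳ y)
    [IsIntegrallyClosed (Y.presheaf.stalk y)]
    [Algebra Y.functionField X.functionField] [FiniteDimensional Y.functionField X.functionField]
    (hcompat : ∀ s : Y.presheaf.stalk y,
      algebraMap Y.functionField X.functionField (algebraMap (Y.presheaf.stalk y) Y.functionField s)
        = (σ.stalkMap (genericPoint X)).hom ((Y.presheaf.stalkSpecializes hy).hom s))
    (h : X.functionField)
    (hunit : ∀ x : X, σ x = y → ∃ u : (X.presheaf.stalk x)ˣ,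
      algebraMap (X.presheaf.stalk x) X.functionField (u : X.presheaf.stalk x) = h) :
    ∃ r : (Y.presheaf.stalk y)ˣ,
      algebraMap (Y.presheaf.stalk y) Y.functionField (r : Y.presheaf.stalk y) =
        Algebra.norm Y.functionField h := by
  -- the `O_{Y,y}`-algebra structure on `K(X)`
  let alg : Algebra (Y.presheaf.stalk y) X.functionField :=
    ((algebraMap Y.functionField X.functionField).comp
      (algebraMap (Y.presheaf.stalk y) Y.functionField)).toAlgebra
  have : IsScalarTower (Y.presheaf.stalk y) Y.functionField X.functionField :=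
    IsScalarTower.of_algebraMap_eq (fun _ => rfl)
  have hmemV : ∀ V : ValuationSubring X.functionField,
      (∀ r : Y.presheaf.stalk y, algebraMap (Y.presheaf.stalk y) X.functionField r ∈ V) →
      h ∈ V ∧ h⁻¹ ∈ V := by
    intro V hV
    have hV' : ∀ s : Y.presheaf.stalk y,
        (σ.stalkMap (genericPoint X)).hom ((Y.presheaf.stalkSpecializes hy).hom s) ∈ V := by
      intro s
      rw [← hcompat s]
      exact hV s
    obtain ⟨x, hxy, hxV⟩ := exists_point_over_of_valuationSubring σ y hy V hV'
    obtain ⟨u, hu⟩ := hunit x hxy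
    refine ⟨hu ▸ hxV _, ?_⟩
    have : algebraMap (X.presheaf.stalk x) X.functionField ((u⁻¹ : (X.presheaf.stalk x)ˣ) :
        X.presheaf.stalk x) = h⁻¹ := by
      rw [← hu]
      exact (map_units_inv (algebraMap (X.presheaf.stalk x) X.functionField) u)
    exact this ▸ hxV _
  obtain ⟨x₀, hx₀⟩ : ∃ x : X, σ x = y :=
    ((ValuativeCriterion.Existence.specializingMap σ (by
      have h := ‹UniversallyClosed σ›
      rw [UniversallyClosed.eq_valuativeCriterion] at h
      exact h.1)) hy).imp fun _ hx => hx.2
  have h0 : h ≠ 0 := by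
    obtain ⟨u, hu⟩ := hunit x₀ hx₀
    rw [← hu]
    exact (u.isUnit.map (algebraMap (X.presheaf.stalk x₀) X.functionField)).ne_zero
  have hi : IsIntegral (Y.presheaf.stalk y) h :=
    isIntegral_of_forall_mem_valuationSubring (fun V hV => (hmemV V hV).1)
  have hi' : IsIntegral (Y.presheaf.stalk y) h⁻¹ :=
    isIntegral_of_forall_mem_valuationSubring (fun V hV => (hmemV V hV).2)
  exact exists_unit_eq_norm (E := Y.functionField) h0 hi hi'


/-- A unit of `O_{X,x₀}` (as an element of the function field) is a unit of `O_{X,x}` for every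
generization `x ⤳ x₀`. -/
theorem exists_unit_stalk_of_specializes {X : Scheme.{u}} [IsIntegral X] {x x₀ : X} (hs : x ⤳ x₀)
    {h : X.functionField}
    (hu : ∃ u : (X.presheaf.stalk x₀)ˣ,
      algebraMap (X.presheaf.stalk x₀) X.functionField (u : X.presheaf.stalk x₀) = h) :
    ∃ u : (X.presheaf.stalk x)ˣ,
      algebraMap (X.presheaf.stalk x) X.functionField (u : X.presheaf.stalk x) = h := by
  obtain ⟨u, rfl⟩ := hu
  refine ⟨Units.map (X.presheaf.stalkSpecializes hs).hom.toMonoidHom u, ?_⟩
  have hgen : genericPoint X ⤳ x := (genericPoint_spec X).specializes trivial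
  have hgen' : genericPoint X ⤳ x₀ := (genericPoint_spec X).specializes trivial
  have e5 := TopCat.Presheaf.stalkSpecializes_comp X.presheaf hgen hs
  change (X.presheaf.stalkSpecializes hgen).hom ((X.presheaf.stalkSpecializes hs).hom u.1) =
    (X.presheaf.stalkSpecializes hgen').hom u.1
  rw [← CommRingCat.comp_apply, e5]

/-- **Norm descent, local form, closed points only.**  As `exists_unit_stalk_eq_norm`, but `y` is
a closed point, `X` is quasi-compact, and `h` is only assumed to be a unit at the *closed* points
of the fibre over `y`. -/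
theorem exists_unit_stalk_eq_norm_of_closedPoints
    {X Y : Scheme.{u}} (σ : X ⟶ Y) [IsIntegral X] [IsIntegral Y] [UniversallyClosed σ]
    [CompactSpace X]
    (y : Y) (hyc : IsClosed ({y} : Set Y)) (hy : σ (genericPoint X) ⤳ y)
    [IsIntegrallyClosed (Y.presheaf.stalk y)]
    [Algebra Y.functionField X.functionField] [FiniteDimensional Y.functionField X.functionField]
    (hcompat : ∀ s : Y.presheaf.stalk y,
      algebraMap Y.functionField X.functionField (algebraMap (Y.presheaf.stalk y) Y.functionField s)
        = (σ.stalkMap (genericPoint X)).hom ((Y.presheaf.stalkSpecializes hy).hom s))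
    (h : X.functionField)
    (hunit : ∀ x : X, IsClosed ({x} : Set X) → σ x = y → ∃ u : (X.presheaf.stalk x)ˣ,
      algebraMap (X.presheaf.stalk x) X.functionField (u : X.presheaf.stalk x) = h) :
    ∃ r : (Y.presheaf.stalk y)ˣ,
      algebraMap (Y.presheaf.stalk y) Y.functionField (r : Y.presheaf.stalk y) =
        Algebra.norm Y.functionField h := by
  refine exists_unit_stalk_eq_norm σ y hy hcompat h (fun x hx => ?_)
  have hcl : IsClosed (σ ⁻¹' ({y} : Set Y)) := hyc.preimage σ.continuous
  obtain ⟨x₀, hx₀, hx₀c⟩ := (isClosed_closure (s := ({x} : Set X))).exists_closed_singleton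
    ⟨x, subset_closure rfl⟩
  have hs : x ⤳ x₀ := specializes_iff_mem_closure.mpr hx₀
  have hx₀y : σ x₀ = y := by
    have : x₀ ∈ σ ⁻¹' ({y} : Set Y) :=
      (closure_minimal (Set.singleton_subset_iff.mpr (by simpa using hx)) hcl) hx₀
    simpa using this
  exact exists_unit_stalk_of_specializes hs (hunit x₀ hx₀c hx₀y)

/-- **Norm descent of local equations.**  Setting of `exists_unit_stalk_eq_norm_of_closedPoints`.
If `F ∈ K(X)` differs from the pull-back of `g ∈ K(Y)` by a unit of `O_{X,x}` at every closed
point `x` over the closed point `y` (i.e. `σ^* g` is a local equation of `div F` along the fibre),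
then `Norm F` differs from `g ^ [K(X):K(Y)]` by a unit of `O_{Y,y}`. -/
theorem exists_unit_stalk_mul_pow_eq_norm
    {X Y : Scheme.{u}} (σ : X ⟶ Y) [IsIntegral X] [IsIntegral Y] [UniversallyClosed σ]
    [CompactSpace X]
    (y : Y) (hyc : IsClosed ({y} : Set Y)) (hy : σ (genericPoint X) ⤳ y)
    [IsIntegrallyClosed (Y.presheaf.stalk y)]
    [Algebra Y.functionField X.functionField] [FiniteDimensional Y.functionField X.functionField]
    (hcompat : ∀ s : Y.presheaf.stalk y,
      algebraMap Y.functionField X.functionField (algebraMap (Y.presheaf.stalk y) Y.functionField s)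
        = (σ.stalkMap (genericPoint X)).hom ((Y.presheaf.stalkSpecializes hy).hom s))
    (F : X.functionField) (g : Y.functionField) (hg : g ≠ 0)
    (hloc : ∀ x : X, IsClosed ({x} : Set X) → σ x = y → ∃ u : (X.presheaf.stalk x)ˣ,
      F = algebraMap (X.presheaf.stalk x) X.functionField (u : X.presheaf.stalk x) *
        algebraMap Y.functionField X.functionField g) :
    ∃ r : (Y.presheaf.stalk y)ˣ,
      Algebra.norm Y.functionField F =
        algebraMap (Y.presheaf.stalk y) Y.functionField (r : Y.presheaf.stalk y) *
          g ^ Module.finrank Y.functionField X.functionField := by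
  have hg' : algebraMap Y.functionField X.functionField g ≠ 0 := by
    simpa using hg
  obtain ⟨r, hr⟩ := exists_unit_stalk_eq_norm_of_closedPoints σ y hyc hy hcompat
    (F * (algebraMap Y.functionField X.functionField g)⁻¹) (fun x hxc hxy => by
      obtain ⟨u, hu⟩ := hloc x hxc hxy
      exact ⟨u, by rw [hu, mul_assoc, mul_inv_cancel₀ hg', mul_one]⟩)
  refine ⟨r, ?_⟩
  have hF : F = (F * (algebraMap Y.functionField X.functionField g)⁻¹) *
      algebraMap Y.functionField X.functionField g := by
    rw [mul_assoc, inv_mul_cancel₀ hg', mul_one]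
  conv_lhs => rw [hF]
  rw [map_mul, ← hr, Algebra.norm_algebraMap]

end Fermat.Agent.S26.NORM5656.Kit
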