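import Fermat.Agent.S26.NORM5656.PullHom
import Fermat.Agent.S26.NORM5656.Kit

/-!
# S26 / P9 (NORM): norm descent of linear equivalence, in the divisor language of `Defs`

`σ : X ⟶ Y` universally closed and dominant, `X`, `Y` integral, `K(X)/K(Y)` finite of degree `N`,
the local rings of `Y` integrally closed.  Then for families of local equations `D, D'` on `Y`

  `σ^* D = σ^* D' + div F`   ⟹   `N D = N D' + div (Norm F)`

(`norm_descent_pullback`), and the same for the class-level pull-back `Fam.pullc`
(`norm_descent_pullc`, `linEquiv_pow_of_linEquiv_pullc`).  No Cartier hypothesis is needed.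
`linEquiv_pow_of_linEquiv_pullc_of_trdeg` is the form for `K`-varieties of the same dimension
(route Step V, (NORM)): `σ^* D ~ σ^* D'` implies `N D ~ N D'` for some `N > 0`.
-/

set_option autoImplicit false

universe u

open CategoryTheory AlgebraicGeometry

namespace Fermat.Agent.S26.NORM5656

variable {X Y : Scheme.{u}} [IsIntegral X] [IsIntegral Y]

/-- The degree `[K(X) : K(Y)]` of a dominant morphism (`0` if the extension is infinite). -/
noncomputable def degree (σ : X ⟶ Y) (hdom : σ.base (genericPoint X) = genericPoint Y) : ℕ :=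
  @Module.finrank Y.functionField X.functionField _ _ (pullHom σ hdom).toAlgebra.toModule

/-- The norm `K(X) → K(Y)` of a dominant morphism. -/
noncomputable def normFun (σ : X ⟶ Y) (hdom : σ.base (genericPoint X) = genericPoint Y) :
    X.functionField →* Y.functionField :=
  @Algebra.norm Y.functionField X.functionField _ _ (pullHom σ hdom).toAlgebra

/-- The norm on units. -/
noncomputable def normUnit (σ : X ⟶ Y) (hdom : σ.base (genericPoint X) = genericPoint Y) :
    (X.functionField)ˣ →* (Y.functionField)ˣ :=
  Units.map (normFun σ hdom)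

theorem degree_pos (σ : X ⟶ Y) (hdom : σ.base (genericPoint X) = genericPoint Y)
    (hfin : (pullHom σ hdom).Finite) : 0 < degree σ hdom := by
  let alg : Algebra Y.functionField X.functionField := (pullHom σ hdom).toAlgebra
  have : FiniteDimensional Y.functionField X.functionField := hfin
  exact Module.finrank_pos

/-- The norm of a pulled back function. -/
theorem normFun_pullHom (σ : X ⟶ Y) (hdom : σ.base (genericPoint X) = genericPoint Y)
    (g : Y.functionField) : normFun σ hdom (pullHom σ hdom g) = g ^ degree σ hdom := by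
  let alg : Algebra Y.functionField X.functionField := (pullHom σ hdom).toAlgebra
  exact Algebra.norm_algebraMap g

/-- **Norm descent, pointwise form.**  If `σ^* g / F` is a unit at every point of the fibre over
`y`, then `g ^ N / Norm F` is a unit at `y`. -/
theorem isUnitAt_pow_div_normFun (σ : X ⟶ Y) [UniversallyClosed σ]
    (hdom : σ.base (genericPoint X) = genericPoint Y) (hfin : (pullHom σ hdom).Finite)
    (y : Y) [IsIntegrallyClosed (Y.presheaf.stalk y)]
    {g : Y.functionField} (hg : g ≠ 0) {F : X.functionField} (hF : F ≠ 0)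
    (h : ∀ x : X, σ.base x = y → IsUnitAt x (pullHom σ hdom g / F)) :
    IsUnitAt y (g ^ degree σ hdom / normFun σ hdom F) := by
  let alg : Algebra Y.functionField X.functionField := (pullHom σ hdom).toAlgebra
  have : FiniteDimensional Y.functionField X.functionField := hfin
  have hy : σ.base (genericPoint X) ⤳ y := hdom ▸ (genericPoint_spec Y).specializes trivial
  have hcompat : ∀ s : Y.presheaf.stalk y,
      algebraMap Y.functionField X.functionField (algebraMap (Y.presheaf.stalk y) Y.functionField s)
        = (σ.stalkMap (genericPoint X)).hom ((Y.presheaf.stalkSpecializes hy).hom s) := by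
    intro s
    have hgen : genericPoint Y ⤳ y := (genericPoint_spec Y).specializes trivial
    have e : Y.presheaf.stalkSpecializes hgen ≫
        Y.presheaf.stalkSpecializes (specializes_of_eq hdom) = Y.presheaf.stalkSpecializes hy :=
      TopCat.Presheaf.stalkSpecializes_comp _ _ _
    rw [← e]
    rfl
  have hh0ne : pullHom σ hdom g / F ≠ 0 := div_ne_zero ((map_ne_zero _).mpr hg) hF
  have hunit : ∀ x : X, σ.base x = y → ∃ u : (X.presheaf.stalk x)ˣ,
      algebraMap (X.presheaf.stalk x) X.functionField (u : X.presheaf.stalk x) =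
        pullHom σ hdom g / F := fun x hx => (isUnitAt_iff x hh0ne).mp (h x hx)
  obtain ⟨r, hr⟩ := Kit.exists_unit_stalk_eq_norm σ y hy hcompat _ hunit
  have hnF : normFun σ hdom F ≠ 0 := Algebra.norm_ne_zero_iff.mpr hF
  have hnorm : Algebra.norm Y.functionField (pullHom σ hdom g / F) * normFun σ hdom F =
      g ^ degree σ hdom := by
    have h1 : Algebra.norm Y.functionField (pullHom σ hdom g / F) * normFun σ hdom F =
        normFun σ hdom (pullHom σ hdom g / F * F) := (map_mul (normFun σ hdom) _ _).symm
    rw [h1, div_mul_cancel₀ _ hF, normFun_pullHom]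
  have hval : g ^ degree σ hdom / normFun σ hdom F =
      Algebra.norm Y.functionField (pullHom σ hdom g / F) := (eq_div_iff hnF).mpr hnorm |>.symm
  have hne : Algebra.norm Y.functionField (pullHom σ hdom g / F) ≠ 0 :=
    Algebra.norm_ne_zero_iff.mpr hh0ne
  rw [hval, isUnitAt_iff y hne]
  exact ⟨r, hr⟩

/-- **P9 (NORM), divisor-level pull-back.**  `σ^* D = σ^* D' + div F` implies
`N D = N D' + div (Norm F)`, `N = [K(X) : K(Y)]`. -/
theorem norm_descent_pullback (σ : X ⟶ Y) [UniversallyClosed σ]
    (hdom : σ.base (genericPoint X) = genericPoint Y) (hfin : (pullHom σ hdom).Finite)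
    (hnormal : ∀ y : Y, IsIntegrallyClosed (Y.presheaf.stalk y))
    (D D' : Fam Y) (F : (X.functionField)ˣ)
    (h : Fam.Same (Fam.pullback σ D) (Fam.pullback σ D' * Fam.const F)) :
    Fam.Same (D ^ degree σ hdom) (D' ^ degree σ hdom * Fam.const (normUnit σ hdom F)) := by
  intro y
  have := hnormal y
  have key := isUnitAt_pow_div_normFun σ hdom hfin y
    (g := ((D y / D' y : (Y.functionField)ˣ) : Y.functionField)) (Units.ne_zero _)
    (F := (F : X.functionField)) (Units.ne_zero F) (fun x hx => by
      have hx' := h x
      have hval : (((Fam.pullback σ D x / (Fam.pullback σ D' * Fam.const F) x :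
          (X.functionField)ˣ)) : X.functionField) =
          pullHom σ hdom ((D y / D' y : (Y.functionField)ˣ) : Y.functionField) / F := by
        rw [Pi.mul_apply, Units.val_div_eq_div_val, Units.val_mul, pullback_val σ hdom,
          pullback_val σ hdom, hx]
        simp only [Fam.const, Units.val_div_eq_div_val, map_div₀]
        field_simp
      rw [← hval]
      exact hx')
  have hval : ((((D ^ degree σ hdom) y / (D' ^ degree σ hdom * Fam.const (normUnit σ hdom F)) y :
      (Y.functionField)ˣ)) : Y.functionField) =
      ((D y / D' y : (Y.functionField)ˣ) : Y.functionField) ^ degree σ hdom /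
        normFun σ hdom F := by
    simp only [Pi.mul_apply, Pi.pow_apply, Fam.const, Units.val_div_eq_div_val, Units.val_mul,
      Units.val_pow_eq_pow_val, normUnit, Units.coe_map, div_pow]
    field_simp
  rw [hval]
  exact key

/-- **P9 (NORM), class-level pull-back.**  `σ^*[D] = σ^*[D'] + div F` implies
`N D = N D' + div f` with `f = (D(η)/D'(η))^N · Norm F`, `η = σ(η_X)`. -/
theorem norm_descent_pullc (σ : X ⟶ Y) [UniversallyClosed σ]
    (hdom : σ.base (genericPoint X) = genericPoint Y) (hfin : (pullHom σ hdom).Finite)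
    (hnormal : ∀ y : Y, IsIntegrallyClosed (Y.presheaf.stalk y))
    (D D' : Fam Y) (F : (X.functionField)ˣ)
    (h : Fam.Same (Fam.pullc σ D) (Fam.pullc σ D' * Fam.const F)) :
    Fam.Same (D ^ degree σ hdom) (D' ^ degree σ hdom * Fam.const
      ((D (σ.base (genericPoint X)) / D' (σ.base (genericPoint X))) ^ degree σ hdom *
        normUnit σ hdom F)) := by
  have key := norm_descent_pullback σ hdom hfin hnormal
    (D * (Fam.const (D (σ.base (genericPoint X))))⁻¹)
    (D' * (Fam.const (D' (σ.base (genericPoint X))))⁻¹) F h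
  intro y
  have hy := key y
  have hval : ((((D ^ degree σ hdom) y / (D' ^ degree σ hdom * Fam.const
      ((D (σ.base (genericPoint X)) / D' (σ.base (genericPoint X))) ^ degree σ hdom *
        normUnit σ hdom F)) y : (Y.functionField)ˣ)) : Y.functionField) =
      (((((D * (Fam.const (D (σ.base (genericPoint X))))⁻¹) ^ degree σ hdom) y /
        ((D' * (Fam.const (D' (σ.base (genericPoint X))))⁻¹) ^ degree σ hdom *
          Fam.const (normUnit σ hdom F)) y : (Y.functionField)ˣ)) : Y.functionField) := by
    simp only [Pi.mul_apply, Pi.pow_apply, Pi.inv_apply, Fam.const, Units.val_div_eq_div_val,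
      Units.val_mul, Units.val_pow_eq_pow_val, Units.val_inv_eq_inv_val, mul_pow, inv_pow, div_pow]
    field_simp
  rw [hval]
  exact hy

/-- **P9 (NORM) for linear equivalence.**  `σ^*[D] ~ σ^*[D']` implies `N D ~ N D'`. -/
theorem linEquiv_pow_of_linEquiv_pullc (σ : X ⟶ Y) [UniversallyClosed σ]
    (hdom : σ.base (genericPoint X) = genericPoint Y) (hfin : (pullHom σ hdom).Finite)
    (hnormal : ∀ y : Y, IsIntegrallyClosed (Y.presheaf.stalk y))
    (D D' : Fam Y) (h : Fam.LinEquiv (Fam.pullc σ D) (Fam.pullc σ D')) :
    Fam.LinEquiv (D ^ degree σ hdom) (D' ^ degree σ hdom) := by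
  obtain ⟨F, hF⟩ := h
  exact ⟨_, norm_descent_pullc σ hdom hfin hnormal D D' F hF⟩

variable {K : Type u} [Field K]

/-- **P9 EXPORT (route Step V, (NORM)).**  `σ : X ⟶ Y` a universally closed dominant morphism of
integral `K`-schemes, `X` locally of finite type over `K`, `trdeg K(X) = trdeg K(Y) = n`, the local
rings of `Y` integrally closed.  If `σ^*[D] ~ σ^*[D']` then `N D ~ N D'` for some `N > 0`
(namely `N = [K(X) : K(Y)]`). -/
theorem linEquiv_pow_of_linEquiv_pullc_of_trdeg
    (sX : X ⟶ Spec (CommRingCat.of K)) (sY : Y ⟶ Spec (CommRingCat.of K)) (σ : X ⟶ Y)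
    (hσ : σ ≫ sY = sX) [UniversallyClosed σ] [LocallyOfFiniteType sX]
    (hdom : σ.base (genericPoint X) = genericPoint Y) {n : ℕ}
    (hX : Algebra.trdeg K (FF sX) = n) (hY : Algebra.trdeg K (FF sY) = n)
    (hnormal : ∀ y : Y, IsIntegrallyClosed (Y.presheaf.stalk y))
    (D D' : Fam Y) (h : Fam.LinEquiv (Fam.pullc σ D) (Fam.pullc σ D')) :
    ∃ N : ℕ, 0 < N ∧ Fam.LinEquiv (D ^ N) (D' ^ N) :=
  have hfin := pullHom_finite σ hdom sX sY hσ hX hY
  ⟨degree σ hdom, degree_pos σ hdom hfin,
    linEquiv_pow_of_linEquiv_pullc σ hdom hfin hnormal D D' h⟩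

end Fermat.Agent.S26.NORM5656
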