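import Fermat.Agent.S26.TChainDefs
import Fermat.Agent.S26.NORM5656.Descent

/-!
# S26 / P9 (NORM): the frozen export `norm_descent` of `TChain.lean`, proved (helper5656)

`Fermat.Agent.S26.NORM5656.norm_descent` has EXACTLY the signature of the frozen
`Fermat.Agent.S26.norm_descent`.  It does not use any other frozen export (the proof only uses
`Kit.lean`, `PullHom.lean`, `Descent.lean` of this directory, which are Mathlib + `Defs` only).
-/

set_option autoImplicit false

universe u

open CategoryTheory CategoryTheory.Limits AlgebraicGeometry NeronModelInfra GoodReductionJacobian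

namespace Fermat.Agent.S26.NORM5656

variable {K : Type u} [Field K]

/-- `pullc` of the trivial family along a dominant morphism is the trivial family. -/
theorem pullc_one {X Y : Scheme.{u}} [IsIntegral X] [IsIntegral Y] (σ : X ⟶ Y)
    (hdom : σ.base (genericPoint X) = genericPoint Y) : Fam.pullc σ (1 : Fam Y) = 1 := by
  funext x
  apply Units.ext
  rw [pullc_val σ hdom]
  simp

/-- **P9 EXPORT** (exact frozen signature of `Fermat.Agent.S26.norm_descent`). -/
theorem norm_descent [IsAlgClosed K] {X Y : Scheme.{u}} [IsIntegral X] [IsIntegral Y]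
    (sX : X ⟶ Spec (CommRingCat.of K)) (sY : Y ⟶ Spec (CommRingCat.of K))
    [IsProper sX] [IsSeparated sY] [LocallyOfFiniteType sY]
    (hnormal : ∀ y : Y, IsIntegrallyClosed (Y.presheaf.stalk y))
    (σ : X ⟶ Y) (hσ : σ ≫ sY = sX) (N : ℕ) (hN : IsGenFiniteOfDegree σ N)
    (M : Fam Y) (hM : M.IsCartier) (h : Fam.LinEquiv (Fam.pullc σ M) 1) :
    Fam.LinEquiv (M ^ N) 1 := by
  obtain ⟨hdom, ι, hι, hfin, hrank⟩ := hN
  have hιeq : ι = pullHom σ hdom := by
    ext v
    rw [hι v, pullFun_eq_pullHom σ hdom]
  subst hιeq
  have huc : UniversallyClosed σ := by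
    have hp : IsProper (σ ≫ sY) := by rw [hσ]; infer_instance
    have : IsProper σ := IsProper.of_comp σ sY
    infer_instance
  have hfin' : (pullHom σ hdom).Finite := hfin
  have hdeg : degree σ hdom = N := hrank
  have h' : Fam.LinEquiv (Fam.pullc σ M) (Fam.pullc σ 1) := by
    rw [pullc_one σ hdom]
    exact h
  have key := linEquiv_pow_of_linEquiv_pullc σ hdom hfin' hnormal M 1 h'
  rw [hdeg, one_pow] at key
  exact key

end Fermat.Agent.S26.NORM5656
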