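import Fermat.Agent.S26.Defs

/-!
# S26 / P9 (NORM): pull-back of rational functions along a dominant morphism

Bridge between the shared definitions of `Fermat.Agent.S26.Defs` (`pullFun`, `Fam.pullback`,
`Fam.pullc`, `IsUnitAt`, `constHom`, `FF`) and honest ring homomorphisms, for a dominant
morphism `σ : X ⟶ Y` of integral schemes (`σ η_X = η_Y`):

* `pullHom σ hdom : K(Y) →+* K(X)`, `pullFun_eq_pullHom`, `pullback_val`, `pullc_val`;
* `isUnitAt_iff` : `IsUnitAt x h` iff `h` is the image of a unit of the stalk (`h ≠ 0`);
* `pullHom_constHom` : compatibility with the `K`-structures;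
* `essFiniteType_FF` : `K(X)/K` is a finitely generated field extension (`X` locally of finite
  type over `K`);
* `finite_of_trdeg_eq`, `pullHom_finite` : `K(X)/K(Y)` is finite when the transcendence degrees
  over `K` agree (generic finiteness).
-/

set_option autoImplicit false

universe u

open CategoryTheory AlgebraicGeometry

namespace Fermat.Agent.S26.NORM5656

variable {X Y : Scheme.{u}} [IsIntegral X] [IsIntegral Y]

/-- Pull-back of rational functions along a dominant morphism, as a ring homomorphism. -/
noncomputable def pullHom (σ : X ⟶ Y) (hdom : σ.base (genericPoint X) = genericPoint Y) :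
    Y.functionField →+* X.functionField :=
  (σ.stalkMap (genericPoint X)).hom.comp
    (Y.presheaf.stalkSpecializes (specializes_of_eq hdom)).hom

/-- For a dominant morphism every rational function is regular at the image of the generic
point. -/
theorem mem_localRing_of_dominant (σ : X ⟶ Y) (hdom : σ.base (genericPoint X) = genericPoint Y)
    (u : Y.functionField) : u ∈ localRing Y (σ.base (genericPoint X)) := by
  refine ⟨(Y.presheaf.stalkSpecializes (specializes_of_eq hdom)).hom u, ?_⟩
  have hgen : genericPoint Y ⤳ σ.base (genericPoint X) :=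
    (genericPoint_spec Y).specializes trivial
  change (Y.presheaf.stalkSpecializes hgen).hom
    ((Y.presheaf.stalkSpecializes (specializes_of_eq hdom)).hom u) = u
  rw [← CommRingCat.comp_apply, TopCat.Presheaf.stalkSpecializes_comp]
  simp

/-- For a dominant morphism the junk-valued `pullFun` of `Defs` is the ring homomorphism
`pullHom`. -/
theorem pullFun_eq_pullHom (σ : X ⟶ Y) (hdom : σ.base (genericPoint X) = genericPoint Y)
    (u : Y.functionField) : pullFun σ u = pullHom σ hdom u := by
  have h := mem_localRing_of_dominant σ hdom u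
  unfold pullFun
  rw [dif_pos h]
  have hc := Classical.choose_spec h
  have hgen : genericPoint Y ⤳ σ.base (genericPoint X) :=
    (genericPoint_spec Y).specializes trivial
  change (Y.presheaf.stalkSpecializes hgen).hom (Classical.choose h) = u at hc
  generalize Classical.choose h = c at hc ⊢
  subst hc
  unfold pullHom
  rw [RingHom.comp_apply]
  congr 1
  rw [← CommRingCat.comp_apply, TopCat.Presheaf.stalkSpecializes_comp]
  simp

theorem toUnit_val {F : Type u} [Field F] {v : F} (hv : v ≠ 0) : ((toUnit v : Fˣ) : F) = v := by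
  unfold toUnit
  rw [dif_neg hv]
  rfl

/-- Value of the divisor-level pull-back along a dominant morphism. -/
theorem pullback_val (σ : X ⟶ Y) (hdom : σ.base (genericPoint X) = genericPoint Y) (D : Fam Y)
    (x : X) :
    ((Fam.pullback σ D x : (X.functionField)ˣ) : X.functionField) =
      pullHom σ hdom ((D (σ.base x) : (Y.functionField)ˣ) : Y.functionField) := by
  unfold Fam.pullback
  rw [toUnit_val, pullFun_eq_pullHom σ hdom]
  rw [pullFun_eq_pullHom σ hdom]
  exact (map_ne_zero _).mpr (Units.ne_zero _)

/-- Value of the class-level pull-back along a dominant morphism. -/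
theorem pullc_val (σ : X ⟶ Y) (hdom : σ.base (genericPoint X) = genericPoint Y) (D : Fam Y)
    (x : X) :
    ((Fam.pullc σ D x : (X.functionField)ˣ) : X.functionField) =
      pullHom σ hdom (((D (σ.base x) / D (σ.base (genericPoint X)) : (Y.functionField)ˣ)) :
        Y.functionField) := by
  unfold Fam.pullc
  rw [pullback_val σ hdom]
  congr 1

/-- `IsUnitAt` in terms of units of the stalk. -/
theorem isUnitAt_iff {X : Scheme.{u}} [IsIntegral X] (x : X) {h : X.functionField} (h0 : h ≠ 0) :
    IsUnitAt x h ↔ ∃ u : (X.presheaf.stalk x)ˣ,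
      algebraMap (X.presheaf.stalk x) X.functionField (u : X.presheaf.stalk x) = h := by
  constructor
  · rintro ⟨⟨a, ha⟩, ⟨b, hb⟩⟩
    have hab : a * b = 1 := by
      apply IsFractionRing.injective (X.presheaf.stalk x) X.functionField
      rw [map_mul, ha, hb, map_one, mul_inv_cancel₀ h0]
    exact ⟨⟨a, b, hab, by rw [mul_comm]; exact hab⟩, ha⟩
  · rintro ⟨r, rfl⟩
    refine ⟨⟨_, rfl⟩, ⟨((r⁻¹ : (X.presheaf.stalk x)ˣ) : X.presheaf.stalk x), ?_⟩⟩
    exact map_units_inv (algebraMap (X.presheaf.stalk x) X.functionField) r

/-- `pullHom` on germs of sections. -/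
theorem pullHom_germ (σ : X ⟶ Y) (hdom : σ.base (genericPoint X) = genericPoint Y)
    (U : Y.Opens) (hU : genericPoint Y ∈ U) (a : Γ(Y, U)) :
    pullHom σ hdom (Y.presheaf.germ U (genericPoint Y) hU a) =
      X.presheaf.germ (σ ⁻¹ᵁ U) (genericPoint X)
        (show σ.base (genericPoint X) ∈ U from hdom ▸ hU) (σ.app U a) := by
  unfold pullHom
  rw [RingHom.comp_apply]
  have h1 : (Y.presheaf.stalkSpecializes (specializes_of_eq hdom)).hom
      (Y.presheaf.germ U (genericPoint Y) hU a) =
      Y.presheaf.germ U (σ.base (genericPoint X)) (hdom ▸ hU) a :=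
    TopCat.Presheaf.germ_stalkSpecializes_apply Y.presheaf hU (specializes_of_eq hdom) a
  rw [h1]
  exact Scheme.Hom.germ_stalkMap_apply σ U (genericPoint X) (hdom ▸ hU) a

variable {K : Type u} [Field K]

/-- `pullHom` is a homomorphism of `K`-algebras for a morphism over `Spec K`. -/
theorem pullHom_constHom (σ : X ⟶ Y) (hdom : σ.base (genericPoint X) = genericPoint Y)
    (sX : X ⟶ Spec (CommRingCat.of K)) (sY : Y ⟶ Spec (CommRingCat.of K)) (hσ : σ ≫ sY = sX)
    (c : K) : pullHom σ hdom (constHom sY c) = constHom sX c := by
  subst hσ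
  exact pullHom_germ σ hdom ⊤ trivial _

/-- Pure field theory: in a tower `K ⊆ E ⊆ F` with `F/K` finitely generated and
`trdeg_K E = trdeg_K F` finite, `F/E` is finite. -/
theorem finite_of_trdeg_eq {K E F : Type u} [Field K] [Field E] [Field F] [Algebra K E]
    [Algebra K F] [Algebra E F] [IsScalarTower K E F] [Algebra.EssFiniteType K F] {n : ℕ}
    (hE : Algebra.trdeg K E = n) (hF : Algebra.trdeg K F = n) : Module.Finite E F := by
  have h := trdeg_add_eq K E (A := F)
  rw [hE, hF] at h
  have h0 : Algebra.trdeg E F = 0 := by
    have hlt : Algebra.trdeg E F < Cardinal.aleph0 := by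
      by_contra hcon
      have hge : Cardinal.aleph0 ≤ Algebra.trdeg E F := not_lt.mp hcon
      have : Cardinal.aleph0 ≤ (n : Cardinal) := by
        calc Cardinal.aleph0 ≤ Algebra.trdeg E F := hge
          _ ≤ (n : Cardinal) + Algebra.trdeg E F := le_add_self
          _ = n := h
      exact absurd this (not_le.mpr (Cardinal.natCast_lt_aleph0 (n := n)))
    obtain ⟨m, hm⟩ := Cardinal.lt_aleph0.mp hlt
    rw [hm] at h ⊢
    have : n + m = n := by exact_mod_cast h
    have : m = 0 := by omega
    simp [this]
  have halg : Algebra.IsAlgebraic E F := trdeg_eq_zero_iff.mp h0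
  have : Algebra.EssFiniteType E F := Algebra.EssFiniteType.of_comp K E F
  exact Algebra.finite_of_essFiniteType_of_isAlgebraic

/-- The function field of an integral scheme locally of finite type over `K` is a finitely
generated field extension of `K`. -/
theorem essFiniteType_FF (s : X ⟶ Spec (CommRingCat.of K)) [LocallyOfFiniteType s] :
    Algebra.EssFiniteType K (FF s) := by
  obtain ⟨U, hU, hxU, -⟩ := exists_isAffineOpen_mem_and_subset (x := genericPoint X)
    (U := ⊤) trivial
  let φ : K →+* Γ(X, U) :=
    (s.appLE ⊤ U le_top).hom.comp (Scheme.ΓSpecIso (CommRingCat.of K)).inv.hom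
  have hφ : φ.FiniteType :=
    RingHom.FiniteType.comp
      (LocallyOfFiniteType.finiteType_appLE s (isAffineOpen_top _) hU le_top)
      (RingHom.FiniteType.of_surjective _
        (Scheme.ΓSpecIso (CommRingCat.of K)).symm.commRingCatIsoToRingEquiv.surjective)
  have : Nonempty U := ⟨⟨_, hxU⟩⟩
  have hcomp : constHom s = (X.germToFunctionField U).hom.comp φ := by
    ext c
    simp only [constHom, φ, RingHom.comp_apply, Scheme.Hom.appLE, CommRingCat.hom_comp]
    exact (TopCat.Presheaf.germ_res_apply X.presheaf (homOfLE le_top) (genericPoint X) hxU _).symm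
  have hloc : (X.germToFunctionField U).hom.EssFiniteType := by
    have := functionField_isFractionRing_of_isAffineOpen X U hU
    exact Algebra.EssFiniteType.of_isLocalization _ (nonZeroDivisors Γ(X, U))
  have key : (constHom s).EssFiniteType := by
    rw [hcomp]
    exact RingHom.EssFiniteType.comp hφ.essFiniteType hloc
  exact key

/-- Finiteness of the function field extension of a dominant morphism of `K`-varieties of the
same dimension. -/
theorem pullHom_finite (σ : X ⟶ Y) (hdom : σ.base (genericPoint X) = genericPoint Y)
    (sX : X ⟶ Spec (CommRingCat.of K)) (sY : Y ⟶ Spec (CommRingCat.of K)) (hσ : σ ≫ sY = sX)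
    [LocallyOfFiniteType sX] {n : ℕ}
    (hX : Algebra.trdeg K (FF sX) = n) (hY : Algebra.trdeg K (FF sY) = n) :
    (pullHom σ hdom).Finite := by
  let alg : Algebra (FF sY) (FF sX) := (pullHom σ hdom).toAlgebra
  have : IsScalarTower K (FF sY) (FF sX) :=
    IsScalarTower.of_algebraMap_eq (fun c => (pullHom_constHom σ hdom sX sY hσ c).symm)
  have := essFiniteType_FF sX
  exact finite_of_trdeg_eq (K := K) (E := FF sY) (F := FF sX) hY hX

end Fermat.Agent.S26.NORM5656
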